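import Mathlib
import Fermat.Prelude.Thm_IsAdicComplete_of_module_finite

/-!
# The `p`-adic Tate module of an abelian group

`TateModule p M = lim M[p^n]`, a module over `ℤ_[p]`.  If `M[p]` is finite and multiplication by `p`
is surjective on the `p`-power torsion, it is free of finite rank, and `T / p^n = M[p^n]`.
-/

set_option autoImplicit false

open PadicInt IsLocalRing

namespace Fermat.Agent.Tate

section Def

variable (p : ℕ) (M : Type*) [AddCommGroup M]

/-- Compatible sequences of `p`-power torsion elements. -/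
def tateSubgroup : AddSubgroup (ℕ → M) where
  carrier := {x | x 0 = 0 ∧ ∀ n, p • x (n + 1) = x n}
  zero_mem' := ⟨rfl, fun _ => smul_zero _⟩
  add_mem' := by
    rintro x y ⟨hx, hx'⟩ ⟨hy, hy'⟩
    exact ⟨by rw [Pi.add_apply, hx, hy, add_zero], fun n => by
      rw [Pi.add_apply, Pi.add_apply, smul_add, hx', hy']⟩
  neg_mem' := by
    rintro x ⟨hx, hx'⟩
    exact ⟨by rw [Pi.neg_apply, hx, neg_zero], fun n => by
      rw [Pi.neg_apply, Pi.neg_apply, smul_neg, hx']⟩

/-- The `p`-adic Tate module of an abelian group. -/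
def TateModule : Type _ := tateSubgroup p M

noncomputable instance : AddCommGroup (TateModule p M) :=
  inferInstanceAs (AddCommGroup (tateSubgroup p M))

variable {p M}

/-- the component of level `n` -/
noncomputable def ev (n : ℕ) : TateModule p M →+ M :=
  (Pi.evalAddMonoidHom (fun _ : ℕ => M) n).comp (tateSubgroup p M).subtype

/-- constructor -/
def mkT (x : ℕ → M) (h0 : x 0 = 0) (h : ∀ n, p • x (n + 1) = x n) : TateModule p M := ⟨x, h0, h⟩

@[simp] theorem ev_mkT (x : ℕ → M) (h0 : x 0 = 0) (h : ∀ n, p • x (n + 1) = x n) (n : ℕ) :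
    ev n (mkT x h0 h) = x n := rfl

theorem ext {x y : TateModule p M} (h : ∀ n, ev n x = ev n y) : x = y :=
  Subtype.ext (funext h)

@[simp] theorem ev_zero (x : TateModule p M) : ev 0 x = 0 := x.2.1

theorem smul_ev_succ (x : TateModule p M) (n : ℕ) : p • ev (n + 1) x = ev n x := x.2.2 n

theorem pow_smul_ev_add (x : TateModule p M) (k n : ℕ) : p ^ k • ev (n + k) x = ev n x := by
  induction k with
  | zero => rw [pow_zero, one_smul, add_zero]
  | succ k ih =>
    rw [pow_succ, mul_smul, ← add_assoc, smul_ev_succ, ih]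

@[simp] theorem pow_smul_ev (x : TateModule p M) (n : ℕ) : p ^ n • ev n x = 0 := by
  have := pow_smul_ev_add x n 0
  rwa [zero_add, ev_zero] at this

theorem smul_congr {N : ℕ} {x : M} (hx : N • x = 0) {k l : ℕ} (h : (k : ZMod N) = l) :
    k • x = l • x := by
  have h1 := (ZMod.natCast_eq_natCast_iff k l N).mp h
  have h2 : (N : ℤ) ∣ (l : ℤ) - k := Nat.modEq_iff_dvd.mp h1
  obtain ⟨c, hc⟩ := h2
  have h3 : ((l : ℤ) - k) • x = 0 := by
    rw [hc, mul_comm, mul_smul]
    rw [natCast_zsmul, hx, smul_zero]
  rw [sub_smul, natCast_zsmul, natCast_zsmul, sub_eq_zero] at h3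
  exact h3.symm

end Def

section Module

variable {p : ℕ} [hp : Fact p.Prime] {M : Type*} [AddCommGroup M]

theorem toZModPow_eq_appr (n : ℕ) (a : ℤ_[p]) : toZModPow n a = (a.appr n : ZMod (p ^ n)) := rfl

noncomputable instance : SMul ℤ_[p] (TateModule p M) where
  smul a x := mkT (fun n => a.appr n • ev n x) (by rw [ev_zero, smul_zero]) fun n => by
    rw [smul_comm, smul_ev_succ]
    refine smul_congr (pow_smul_ev x n) ?_
    have h1 := a.dvd_appr_sub_appr n (n + 1) (Nat.le_succ n)
    have h2 : a.appr n ≤ a.appr (n + 1) := a.appr_mono (Nat.le_succ n)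
    rw [eq_comm, ZMod.natCast_eq_natCast_iff, Nat.modEq_iff_dvd' h2]
    exact h1

theorem ev_smul' (a : ℤ_[p]) (x : TateModule p M) (n : ℕ) : ev n (a • x) = a.appr n • ev n x := rfl

theorem ev_smul_of_eq {a : ℤ_[p]} {n k : ℕ} (h : toZModPow n a = (k : ZMod (p ^ n)))
    (x : TateModule p M) : ev n (a • x) = k • ev n x := by
  rw [ev_smul']
  exact smul_congr (pow_smul_ev x n) h

noncomputable instance : Module ℤ_[p] (TateModule p M) where
  one_smul x := ext fun n => by
    rw [ev_smul_of_eq (k := 1) (by rw [map_one, Nat.cast_one]), one_smul]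
  mul_smul a b x := ext fun n => by
    rw [ev_smul_of_eq (k := a.appr n * b.appr n) (by
      rw [map_mul, toZModPow_eq_appr, toZModPow_eq_appr, Nat.cast_mul]), mul_smul, ev_smul',
      ev_smul']
  smul_zero a := ext fun n => by rw [ev_smul', map_zero, smul_zero]
  smul_add a x y := ext fun n => by
    rw [ev_smul', map_add, map_add, smul_add, ev_smul', ev_smul']
  add_smul a b x := ext fun n => by
    rw [ev_smul_of_eq (k := a.appr n + b.appr n) (by
      rw [map_add, toZModPow_eq_appr, toZModPow_eq_appr, Nat.cast_add]), add_smul, map_add,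
      ev_smul', ev_smul']
  zero_smul x := ext fun n => by
    rw [ev_smul_of_eq (k := 0) (by rw [map_zero, Nat.cast_zero]), zero_smul, map_zero]

theorem ev_pow_smul (k n : ℕ) (x : TateModule p M) : ev n ((p : ℤ_[p]) ^ k • x) = p ^ k • ev n x := by
  refine ev_smul_of_eq ?_ x
  rw [map_pow, map_natCast, Nat.cast_pow]

/-- functoriality -/
noncomputable def map {N : Type*} [AddCommGroup N] (f : M →+ N) :
    TateModule p M →ₗ[ℤ_[p]] TateModule p N where
  toFun x := mkT (fun n => f (ev n x)) (by rw [ev_zero, map_zero]) fun n => by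
    rw [← map_nsmul, smul_ev_succ]
  map_add' x y := ext fun n => by
    rw [ev_mkT, map_add, map_add, map_add, ev_mkT, ev_mkT]
  map_smul' a x := ext fun n => by
    rw [ev_mkT, ev_smul', map_nsmul, RingHom.id_apply, ev_smul', ev_mkT]

@[simp] theorem ev_map {N : Type*} [AddCommGroup N] (f : M →+ N) (x : TateModule p M) (n : ℕ) :
    ev n (map f x) = f (ev n x) := rfl

theorem map_id : map (p := p) (AddMonoidHom.id M) = LinearMap.id :=
  LinearMap.ext fun _ => ext fun _ => rfl

theorem map_comp {N P : Type*} [AddCommGroup N] [AddCommGroup P] (g : N →+ P) (f : M →+ N) :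
    map (p := p) (g.comp f) = (map g).comp (map f) :=
  LinearMap.ext fun _ => ext fun _ => rfl

variable (p M) in
/-- The action of endomorphisms. -/
noncomputable def mapEnd : AddMonoid.End M →* Module.End ℤ_[p] (TateModule p M) where
  toFun f := map f
  map_one' := map_id
  map_mul' f g := map_comp f g

/-- `x` is divisible by `p^n` iff its component of level `n` vanishes. -/
theorem ev_eq_zero_iff (x : TateModule p M) (n : ℕ) :
    ev n x = 0 ↔ ∃ y : TateModule p M, (p : ℤ_[p]) ^ n • y = x := by
  constructor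
  · intro h
    refine ⟨mkT (fun k => ev (k + n) x) (by rw [zero_add, h]) fun k => ?_, ext fun k => ?_⟩
    · have : k + 1 + n = (k + n) + 1 := by ring
      rw [this, smul_ev_succ]
    · rw [ev_pow_smul, ev_mkT, pow_smul_ev_add]
  · rintro ⟨y, rfl⟩
    rw [ev_pow_smul, pow_smul_ev]

theorem mem_maximalIdeal_pow_smul_top_iff (x : TateModule p M) (n : ℕ) :
    x ∈ (maximalIdeal ℤ_[p] ^ n) • (⊤ : Submodule ℤ_[p] (TateModule p M)) ↔ ev n x = 0 := by
  rw [ev_eq_zero_iff, PadicInt.maximalIdeal_eq_span_p, Ideal.span_singleton_pow,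
    Submodule.ideal_span_singleton_smul, Submodule.mem_smul_pointwise_iff_exists]
  simp

theorem eq_zero_of_smul_eq_zero {a : ℤ_[p]} (ha : a ≠ 0) {x : TateModule p M} (h : a • x = 0) :
    x = 0 := by
  have h1 : (p : ℤ_[p]) ^ a.valuation • x = 0 := by
    rw [PadicInt.unitCoeff_spec ha, mul_smul] at h
    have h2 := congrArg (fun z => ((unitCoeff ha)⁻¹ : ℤ_[p]ˣ).1 • z) h
    simp only [smul_zero, ← mul_smul, ← mul_assoc, Units.inv_mul, one_mul] at h2
    exact h2
  refine ext fun n => ?_
  rw [← pow_smul_ev_add x a.valuation n, ← ev_pow_smul, h1, map_zero, map_zero]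

instance : Module.IsTorsionFree ℤ_[p] (TateModule p M) :=
  Module.isTorsionFree_iff_smul_eq_zero.mpr fun a x h => by
    by_cases ha : a = 0
    · exact Or.inl ha
    · exact Or.inr (eq_zero_of_smul_eq_zero ha h)

instance : IsHausdorff (maximalIdeal ℤ_[p]) (TateModule p M) where
  haus' x hx := ext fun n => by
    have h := hx n
    rw [SModEq.zero, mem_maximalIdeal_pow_smul_top_iff] at h
    rw [h, map_zero]

end Module

/-- Multiplication by `p` is surjective on `p`-power torsion. -/
def TorsionDivisible (p : ℕ) (M : Type*) [AddCommGroup M] : Prop :=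
  ∀ (n : ℕ) (x : M), p ^ n • x = 0 → ∃ y : M, p • y = x

section Structure

variable {p : ℕ} [hp : Fact p.Prime] {M : Type*} [AddCommGroup M]

omit hp in
theorem exists_ev_eq (hdiv : TorsionDivisible p M) {n : ℕ} {x : M} (hx : p ^ n • x = 0) :
    ∃ t : TateModule p M, ev n t = x := by
  classical
  -- `z k` has level `n + k`
  have step : ∀ k : ℕ, ∀ u : {u : M // p ^ (n + k) • u = 0},
      ∃ v : {v : M // p ^ (n + (k + 1)) • v = 0}, p • v.1 = u.1 := by
    rintro k ⟨u, hu⟩
    obtain ⟨y, hy⟩ := hdiv _ u hu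
    refine ⟨⟨y, ?_⟩, hy⟩
    rw [← add_assoc, pow_succ, mul_smul, hy, hu]
  choose f hf using step
  let z : (k : ℕ) → {u : M // p ^ (n + k) • u = 0} := fun k =>
    Nat.rec ⟨x, hx⟩ (fun k u => f k u) k
  have hz0 : (z 0).1 = x := rfl
  have hz : ∀ k, p • (z (k + 1)).1 = (z k).1 := fun k => hf k (z k)
  have hz' : ∀ k, p ^ k • (z k).1 = x := by
    intro k
    induction k with
    | zero => rw [pow_zero, one_smul, hz0]
    | succ k ih => rw [pow_succ, mul_smul, hz, ih]
  refine ⟨mkT (fun m => p ^ (n - m) • (z (m - n)).1) ?_ ?_, ?_⟩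
  · rw [Nat.sub_zero, Nat.zero_sub, hz0, hx]
  · intro m
    rcases Nat.lt_or_ge m n with h | h
    · have e1 : m + 1 - n = 0 := by omega
      have e2 : m - n = 0 := by omega
      have e3 : n - m = (n - (m + 1)) + 1 := by omega
      rw [e1, e2, e3, pow_succ', mul_smul]
    · have e1 : n - (m + 1) = 0 := by omega
      have e2 : n - m = 0 := by omega
      have e3 : m + 1 - n = (m - n) + 1 := by omega
      rw [e1, e2, e3, pow_zero, one_smul, one_smul, hz]
  · rw [ev_mkT, Nat.sub_self, pow_zero, one_smul, hz0]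

theorem finite_of_finite (hfin : Finite {x : M // p • x = 0}) :
    Module.Finite ℤ_[p] (TateModule p M) := by
  classical
  let I := maximalIdeal ℤ_[p]
  let Q := TateModule p M ⧸ (I • (⊤ : Submodule ℤ_[p] (TateModule p M)))
  -- `T / I T` embeds in `M[p]`
  have hmem : ∀ x : TateModule p M, x ∈ I • (⊤ : Submodule ℤ_[p] (TateModule p M)) ↔
      ev 1 x = 0 := by
    intro x
    have := mem_maximalIdeal_pow_smul_top_iff x 1
    rwa [pow_one] at this
  have hQ : Finite Q := by
    let g : TateModule p M →+ M := ev 1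
    let g' : Q →+ M := QuotientAddGroup.lift _ g fun x hx => (hmem x).mp hx
    have hg' : Function.Injective g' := by
      rw [injective_iff_map_eq_zero]
      intro q hq
      obtain ⟨x, rfl⟩ := Submodule.Quotient.mk_surjective _ q
      rw [Submodule.Quotient.mk_eq_zero, hmem]
      exact hq
    have hrange : ∀ q : Q, p • g' q = 0 := by
      intro q
      obtain ⟨x, rfl⟩ := Submodule.Quotient.mk_surjective _ q
      have := pow_smul_ev x 1
      rw [pow_one] at this
      exact this
    exact Finite.of_injective (fun q : Q => (⟨g' q, hrange q⟩ : {x : M // p • x = 0}))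
      fun a b h => hg' (congrArg Subtype.val h)
  obtain ⟨n, ⟨e⟩⟩ := Finite.exists_equiv_fin Q
  let t : Fin n → TateModule p M := fun i =>
    (Submodule.Quotient.mk_surjective _ (e.symm i)).choose
  have ht : ∀ i, Submodule.Quotient.mk (p := I • (⊤ : Submodule ℤ_[p] (TateModule p M))) (t i)
      = e.symm i :=
    fun i => (Submodule.Quotient.mk_surjective _ (e.symm i)).choose_spec
  let f : (Fin n → ℤ_[p]) →ₗ[ℤ_[p]] TateModule p M := Fintype.linearCombination ℤ_[p] t
  have hpre : IsAdicComplete I (Fin n → ℤ_[p]) := IsAdicComplete.of_module_finite I _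
  have hf : Function.Surjective (Submodule.mkQ (I • ⊤) ∘ₗ f) := by
    intro q
    refine ⟨Pi.single (e q) 1, ?_⟩
    rw [LinearMap.comp_apply, Fintype.linearCombination_apply_single, one_smul, Submodule.mkQ_apply,
      ht, Equiv.symm_apply_apply]
  have hsurj : Function.Surjective f := surjective_of_mkQ_comp_surjective hf
  exact Module.Finite.of_surjective f hsurj

theorem free_of_finite (hfin : Finite {x : M // p • x = 0}) :
    Module.Free ℤ_[p] (TateModule p M) := by
  have := finite_of_finite hfin
  exact Module.free_of_finite_type_torsion_free'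

end Structure

end Fermat.Agent.Tate
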