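import Fermat.Agent.Tate.Red
import Fermat.Agent.FlatModel.Adic
import Fermat.Prelude.Def_GaloisRep_StrictOrdinary

/-!
# Ordinary and flat Tate modules

Transfer of local conditions at `p` from the finite levels `M[p^n]` to the Tate module.
-/

set_option autoImplicit false

open PadicInt IsLocalRing Polynomial

namespace Fermat.Agent.Tate

local notation "Γℚ" => (AlgebraicClosure ℚ ≃ₐ[ℚ] AlgebraicClosure ℚ)

section SubTate

variable {p : ℕ} [hp : Fact p.Prime] {M : Type*} [AddCommGroup M]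

/-- The Tate module of a subgroup, as a submodule. -/
noncomputable def subTate (p : ℕ) [hp : Fact p.Prime] {M : Type*} [AddCommGroup M]
    (L : AddSubgroup M) : Submodule ℤ_[p] (TateModule p M) where
  carrier := {v | ∀ n, ev n v ∈ L}
  add_mem' hv hw n := by
    rw [map_add]
    exact L.add_mem (hv n) (hw n)
  zero_mem' n := by
    rw [map_zero]
    exact L.zero_mem
  smul_mem' a v hv n := by
    rw [ev_smul']
    exact L.nsmul_mem (hv n) _

theorem mem_subTate {L : AddSubgroup M} {v : TateModule p M} :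
    v ∈ subTate p L ↔ ∀ n, ev n v ∈ L := Iff.rfl

/-- `T_p L` as a module. -/
noncomputable def subTateEquiv (L : AddSubgroup M) : TateModule p L ≃ₗ[ℤ_[p]] subTate p L :=
  LinearEquiv.ofBijective
    ((map L.subtype).codRestrict (subTate p L) fun v n => by
      rw [ev_map]
      exact (ev n v).2)
    ⟨fun v w hvw => ext fun n => Subtype.ext
      (congrArg (fun z : subTate p L => ev n (z : TateModule p M)) hvw), fun w => by
      refine ⟨mkT (fun n => ⟨ev n w.1, w.2 n⟩) (Subtype.ext (ev_zero _)) fun n =>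
        Subtype.ext (smul_ev_succ _ _), Subtype.ext (ext fun n => rfl)⟩⟩

theorem mem_subTate_of_smul_mem {L : AddSubgroup M} {a : ℤ_[p]} (ha : a ≠ 0) {v : TateModule p M}
    (h : a • v ∈ subTate p L) : v ∈ subTate p L := by
  have h1 : (p : ℤ_[p]) ^ a.valuation • v ∈ subTate p L := by
    have h2 := (subTate p L).smul_mem ((unitCoeff ha)⁻¹ : ℤ_[p]ˣ).1 h
    rw [← mul_smul] at h2
    conv at h2 =>
      enter [2, 1, 2]
      rw [PadicInt.unitCoeff_spec ha]
    rw [← mul_assoc, Units.inv_mul, one_mul] at h2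
    exact h2
  intro n
  have h2 := h1 (n + a.valuation)
  rw [ev_pow_smul] at h2
  rwa [pow_smul_ev_add] at h2

instance (L : AddSubgroup M) : Module.IsTorsionFree ℤ_[p] (TateModule p M ⧸ subTate p L) :=
  Module.isTorsionFree_iff_smul_eq_zero.mpr fun a x hx => by
    obtain ⟨v, rfl⟩ := Submodule.Quotient.mk_surjective _ x
    by_cases ha : a = 0
    · exact Or.inl ha
    · refine Or.inr ?_
      rw [← Submodule.Quotient.mk_smul, Submodule.Quotient.mk_eq_zero] at hx
      rw [Submodule.Quotient.mk_eq_zero]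
      exact mem_subTate_of_smul_mem ha hx

theorem finrank_subTate {L : AddSubgroup M} {r : ℕ}
    (hcard : Nat.card {x : M // x ∈ L ∧ p • x = 0} = p ^ r)
    (hdiv : ∀ (n : ℕ) (x : M), x ∈ L → p ^ n • x = 0 → ∃ y ∈ L, p • y = x) :
    Module.finrank ℤ_[p] (subTate p L) = r := by
  rw [← (subTateEquiv (p := p) L).finrank_eq]
  refine finrank_tateModule (p := p) (M := L) ?_ ?_
  · rintro n ⟨x, hx⟩ hn
    obtain ⟨y, hy, hxy⟩ := hdiv n x hx (congrArg Subtype.val hn)
    exact ⟨⟨y, hy⟩, Subtype.ext hxy⟩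
  · rw [← hcard]
    refine Nat.card_congr ⟨fun x => ⟨x.1.1, x.1.2, congrArg Subtype.val x.2⟩,
      fun x => ⟨⟨x.1, x.2.1⟩, Subtype.ext x.2.2⟩, fun x => rfl, fun x => rfl⟩

/-- A line in `T_p M` from a subgroup with `#L[p] = p`. -/
theorem exists_basis_subTate [Module.Free ℤ_[p] (TateModule p M)]
    [Module.Finite ℤ_[p] (TateModule p M)]
    (h2 : Module.finrank ℤ_[p] (TateModule p M) = 2) {L : AddSubgroup M}
    (hcard : Nat.card {x : M // x ∈ L ∧ p • x = 0} = p)
    (hdiv : ∀ (n : ℕ) (x : M), x ∈ L → p ^ n • x = 0 → ∃ y ∈ L, p • y = x) :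
    ∃ b : Module.Basis (Fin 2) ℤ_[p] (TateModule p M), subTate p L = ℤ_[p] ∙ b 0 := by
  have hW := finrank_subTate (p := p) (r := 1) (by rw [pow_one]; exact hcard) hdiv
  have hfreeQ : Module.Free ℤ_[p] (TateModule p M ⧸ subTate p L) :=
    Module.free_of_finite_type_torsion_free'
  have hfreeW : Module.Free ℤ_[p] (subTate p L) := inferInstance
  let bW := Module.finBasisOfFinrankEq ℤ_[p] (subTate p L) hW
  let bQ := Module.finBasis ℤ_[p] (TateModule p M ⧸ subTate p L)
  have hQ : Module.finrank ℤ_[p] (TateModule p M ⧸ subTate p L) = 1 := by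
    have h3 := Module.finrank_eq_card_basis (Module.Basis.sumQuot bW bQ)
    rw [h2, Fintype.card_sum, Fintype.card_fin, Fintype.card_fin] at h3
    omega
  let bQ' := Module.finBasisOfFinrankEq ℤ_[p] (TateModule p M ⧸ subTate p L) hQ
  let b := (Module.Basis.sumQuot bW bQ').reindex finSumFinEquiv
  refine ⟨b, ?_⟩
  have hb0 : b 0 = bW 0 := by
    have h3 : (finSumFinEquiv : Fin 1 ⊕ Fin 1 ≃ Fin 2) (Sum.inl (0 : Fin 1)) = 0 := rfl
    rw [← h3, Module.Basis.reindex_apply, Equiv.symm_apply_apply, Module.Basis.sumQuot_inl]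
  rw [hb0]
  ext v
  rw [Submodule.mem_span_singleton]
  constructor
  · intro hv
    refine ⟨bW.repr ⟨v, hv⟩ 0, ?_⟩
    have h4 := bW.sum_repr ⟨v, hv⟩
    rw [Fin.sum_univ_one] at h4
    exact congrArg Subtype.val h4
  · rintro ⟨a, rfl⟩
    exact (subTate p L).smul_mem a (bW 0).2

end SubTate

section Ord

variable {p : ℕ} {M : Type} [AddCommGroup M] [DistribMulAction Γℚ M]

/-- The finite level data giving an ordinary Tate module: a subgroup `L` of `M` with `L[p^n]` of
order `p^n`, stable under the decomposition group, with trivial action of inertia on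
`M[p^∞] / L`. -/
structure IsOrdLine (p : ℕ) {M : Type} [AddCommGroup M] [DistribMulAction Γℚ M]
    (P : ValuationSubring (AlgebraicClosure ℚ)) (L : AddSubgroup M) : Prop where
  card : Nat.card {x : M // x ∈ L ∧ p • x = 0} = p
  div : ∀ (n : ℕ) (x : M), x ∈ L → p ^ n • x = 0 → ∃ y ∈ L, p • y = x
  decomp : ∀ σ ∈ P.decompositionSubgroup ℚ, ∀ (n : ℕ) (x : M), x ∈ L → p ^ n • x = 0 → σ • x ∈ L
  inertia : ∀ σ ∈ P.inertiaSubgroupIn ℚ, ∀ (n : ℕ) (x : M), p ^ n • x = 0 → σ • x - x ∈ L

omit [DistribMulAction Γℚ M] in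
/-- The counting form of the first two conditions. -/
theorem div_of_card (hp : p.Prime) {L : AddSubgroup M}
    (hcard : ∀ n : ℕ, Nat.card {x : M // x ∈ L ∧ p ^ n • x = 0} = p ^ n) (n : ℕ) (x : M)
    (hx : x ∈ L) (hn : p ^ n • x = 0) : ∃ y ∈ L, p • y = x := by
  -- multiplication by `p` from `L[p^{n+1}]` to `L[p^n]`
  let T : ℕ → AddSubgroup M := fun k =>
    { carrier := {x | x ∈ L ∧ p ^ k • x = 0}
      add_mem' := fun {a b} ha hb => ⟨L.add_mem ha.1 hb.1, by rw [smul_add, ha.2, hb.2, add_zero]⟩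
      zero_mem' := ⟨L.zero_mem, smul_zero _⟩
      neg_mem' := fun {a} ha => ⟨L.neg_mem ha.1, by rw [smul_neg, ha.2, neg_zero]⟩ }
  have hT : ∀ k, Nat.card (T k) = p ^ k := fun k => hcard k
  have hfin : ∀ k, Finite (T k) := fun k =>
    Nat.finite_of_card_ne_zero (by rw [hT]; exact pow_ne_zero _ hp.ne_zero)
  let f : T (n + 1) →+ T n :=
    { toFun := fun x => ⟨p • x.1, L.nsmul_mem x.2.1 _, by
        rw [← mul_smul, ← pow_succ]; exact x.2.2⟩
      map_zero' := Subtype.ext (smul_zero _)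
      map_add' := fun x y => Subtype.ext (smul_add _ _ _) }
  have hker : Nat.card f.ker = p := by
    have h1 := hT 1
    rw [pow_one] at h1
    rw [← h1]
    refine Nat.card_congr ⟨fun x => ⟨x.1.1, x.1.2.1, ?_⟩, fun x => ⟨⟨x.1, x.2.1, ?_⟩, ?_⟩,
      fun x => rfl, fun x => rfl⟩
    · rw [pow_one]
      exact congrArg Subtype.val x.2
    · have h2 := x.2.2
      rw [pow_one] at h2
      rw [pow_succ, mul_smul, h2, smul_zero]
    · have h2 := x.2.2
      rw [pow_one] at h2
      exact Subtype.ext h2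
  have hindex : Nat.card f.ker * Nat.card f.range = Nat.card (T (n + 1)) := by
    rw [← Nat.card_congr (QuotientAddGroup.quotientKerEquivRange f).toEquiv, mul_comm]
    exact (AddSubgroup.card_eq_card_quotient_mul_card_addSubgroup f.ker).symm
  rw [hker, hT, pow_succ, mul_comm (p ^ n) p] at hindex
  have hrange : Nat.card f.range = Nat.card (T n) := by
    rw [hT]
    exact Nat.eq_of_mul_eq_mul_left hp.pos hindex
  have hsurj : f.range = ⊤ := AddSubgroup.eq_top_of_card_eq _ hrange
  obtain ⟨y, hy⟩ := AddMonoidHom.range_eq_top.mp hsurj ⟨x, hx, hn⟩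
  exact ⟨y.1, y.2.1, congrArg Subtype.val hy⟩

theorem IsOrdLine.mk_of_card (hp : p.Prime) {P : ValuationSubring (AlgebraicClosure ℚ)}
    {L : AddSubgroup M}
    (hcard : ∀ n : ℕ, Nat.card {x : M // x ∈ L ∧ p ^ n • x = 0} = p ^ n)
    (hdec : ∀ σ ∈ P.decompositionSubgroup ℚ, ∀ (n : ℕ) (x : M), x ∈ L → p ^ n • x = 0 → σ • x ∈ L)
    (hin : ∀ σ ∈ P.inertiaSubgroupIn ℚ, ∀ (n : ℕ) (x : M), p ^ n • x = 0 → σ • x - x ∈ L) :
    IsOrdLine p P L where
  card := by
    have := hcard 1
    rwa [pow_one] at this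
  div := div_of_card hp hcard
  decomp := hdec
  inertia := hin

variable [hp : Fact p.Prime] (h : IsTateType p M)

/-- `T_p L` inside the space of `tateRep`. -/
noncomputable def lineIn (L : AddSubgroup M) : Submodule ℤ_[p] (tateRep h).V := subTate p L

theorem mem_lineIn {L : AddSubgroup M} {v : (tateRep h).V} :
    v ∈ lineIn h L ↔ ∀ n, (levelMap h n v : M) ∈ L := Iff.rfl

theorem exists_basis_line {P : ValuationSubring (AlgebraicClosure ℚ)} {L : AddSubgroup M}
    (hL : IsOrdLine p P L) :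
    ∃ b : Module.Basis (Fin 2) ℤ_[p] (tateRep h).V, lineIn h L = ℤ_[p] ∙ b 0 := by
  have := finite_of_finite (finite_of_card_eq h.card)
  have := free_of_finite (finite_of_card_eq h.card)
  exact exists_basis_subTate (finrank_tateModule h.div h.card) hL.card hL.div

/-- **Ordinarity of the Tate module from finite levels.** -/
theorem isOrdinaryAt
    (hord : ∀ P : ValuationSubring (AlgebraicClosure ℚ), P.LiesOverPrime p →
      ∃ L : AddSubgroup M, IsOrdLine p P L) : (tateRep h).IsOrdinaryAt p := by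
  intro P hP
  obtain ⟨L, hL⟩ := hord P hP
  refine ⟨lineIn h L, exists_basis_line h hL, ?_, ?_⟩
  · intro σ hσ v hv n
    exact hL.decomp σ hσ n _ (hv n) (torsion_levelMap h n v)
  · intro σ hσ v
    rw [mem_lineIn]
    intro n
    rw [map_sub]
    exact hL.inertia σ hσ n _ (torsion_levelMap h n v)

/-- determinant of an endomorphism preserving a line -/
theorem det_eq_of_line {A V : Type*} [CommRing A] [AddCommGroup V] [Module A V]
    (b : Module.Basis (Fin 2) A V) (f : V →ₗ[A] V) {x z : A} (hx : f (b 0) = x • b 0)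
    (hz : f (b 1) - z • b 1 ∈ A ∙ b 0) : LinearMap.det f = x * z := by
  obtain ⟨c, hc⟩ := Submodule.mem_span_singleton.mp hz
  have h1 : f (b 1) = c • b 0 + z • b 1 := by rw [hc]; abel
  rw [← LinearMap.det_toMatrix b, Matrix.det_fin_two]
  simp only [LinearMap.toMatrix_apply, hx, h1, map_smul, map_add, Module.Basis.repr_self,
    Finsupp.smul_apply, Finsupp.add_apply, smul_eq_mul]
  simp

/-- **Strict ordinarity of the Tate module from finite levels** (multiplicative case). -/
theorem isStrictOrdinaryAt (hdet : (tateRep h).DetIsCyclotomic p)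
    (hord : ∀ P : ValuationSubring (AlgebraicClosure ℚ), P.LiesOverPrime p →
      ∃ L : AddSubgroup M, IsOrdLine p P L ∧
        ∀ σ ∈ P.decompositionSubgroup ℚ, ∃ ε : ℤ, ε * ε = 1 ∧
          ∀ (n : ℕ) (x : M), p ^ n • x = 0 → σ • x - ε • x ∈ L) :
    (tateRep h).IsStrictOrdinaryAt p := by
  refine ⟨hdet.1, fun P hP => ?_⟩
  obtain ⟨L, hL, hε⟩ := hord P hP
  obtain ⟨b, hb⟩ := exists_basis_line h hL
  have hdec : ∀ σ ∈ P.decompositionSubgroup ℚ,
      ∀ v ∈ lineIn h L, (tateRep h).ρ σ v ∈ lineIn h L := by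
    intro σ hσ v hv n
    exact hL.decomp σ hσ n _ (hv n) (torsion_levelMap h n v)
  refine ⟨lineIn h L, ⟨b, hb⟩, hdec, ?_, ?_⟩
  · intro σ hσ v
    rw [mem_lineIn]
    intro n
    rw [map_sub]
    exact hL.inertia σ hσ n _ (torsion_levelMap h n v)
  · intro σ hσ
    obtain ⟨ε, hε1, hε2⟩ := hε σ hσ
    have hquot : ∀ v : (tateRep h).V, (tateRep h).ρ σ v - (ε : ℤ_[p]) • v ∈ lineIn h L := by
      intro v
      rw [mem_lineIn]
      intro n
      rw [Int.cast_smul_eq_zsmul, map_sub, map_zsmul]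
      exact hε2 n _ (torsion_levelMap h n v)
    have h0 : b 0 ∈ lineIn h L := by
      rw [hb]; exact Submodule.mem_span_singleton_self _
    have h1 := hdec σ hσ _ h0
    rw [hb] at h1
    obtain ⟨x, hx⟩ := Submodule.mem_span_singleton.mp h1
    have hz := hquot (b 1)
    rw [hb] at hz
    have hd := det_eq_of_line b ((tateRep h).ρ σ) hx.symm hz
    refine ⟨x, (ε : ℤ_[p]), ?_, hquot, ?_⟩
    · intro w hw
      rw [hb] at hw
      obtain ⟨c, rfl⟩ := Submodule.mem_span_singleton.mp hw
      rw [map_smul, ← hx, smul_comm]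
    · intro n a ha
      have hdet' := hdet.2 n σ a ha
      rw [hd] at hdet'
      have hε3 : (ε : ℤ_[p]) * ε = 1 := by exact_mod_cast congrArg (fun z : ℤ => (z : ℤ_[p])) hε1
      have : x - (a : ℤ_[p]) * ε = ε * (x * ε - a) := by
        linear_combination (-x) * hε3
      rw [this]
      exact Ideal.mul_mem_left _ _ hdet'

/-- **Flatness of the Tate module from finite levels.** -/
theorem isFlatAt {q : ℕ}
    (hflat : ∀ n : ℕ, ∃ act : Γℚ →* AddMonoid.End (Submodule.torsionBy ℤ M (p ^ n : ℕ)),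
      (∀ σ x, (act σ x : M) = σ • (x : M)) ∧ Fermat.FlatModel.HasFlatModel q act) :
    (tateRep h).IsFlatAt q := by
  have hfinR : Finite (ResidueField ℤ_[p]) :=
    Finite.of_equiv _ (PadicInt.residueField (p := p)).symm.toEquiv
  have hquot : ∀ n, Finite (ℤ_[p] ⧸ (maximalIdeal ℤ_[p] ^ n)) := by
    intro n
    have h1 : maximalIdeal ℤ_[p] ^ n = RingHom.ker (toZModPow (p := p) n) := by
      rw [PadicInt.ker_toZModPow, PadicInt.maximalIdeal_eq_span_p, Ideal.span_singleton_pow]
    rw [h1]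
    exact Finite.of_injective _ (RingHom.kerLift_injective (toZModPow (p := p) n))
  refine Fermat.FlatModel.isFlatAt_of_cofinal (tateRep h) q hfinR
    (fun n => maximalIdeal ℤ_[p] ^ n) ?_ hquot ?_
  · intro I hI
    by_cases hI0 : I = ⊥
    · exfalso
      rw [hI0] at hI
      have : Finite ℤ_[p] := Finite.of_equiv _ (RingEquiv.quotientBot ℤ_[p]).toEquiv
      exact not_finite ℤ_[p]
    · obtain ⟨n, hn⟩ := PadicInt.ideal_eq_span_pow_p hI0
      exact ⟨n, by rw [hn, PadicInt.maximalIdeal_eq_span_p, Ideal.span_singleton_pow]⟩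
  · intro n
    obtain ⟨act, hact, hm⟩ := hflat n
    have hfin : Finite (Submodule.torsionBy ℤ M (p ^ n : ℕ)) := by
      letI : Module (ZMod (p ^ n)) (Submodule.torsionBy ℤ M (p ^ n : ℕ)) :=
        AddCommGroup.zmodModule fun x => by
          rw [← Nat.cast_smul_eq_nsmul ℤ (p ^ n) x]
          exact Submodule.smul_torsionBy _ x
      let b := (isLevel_levelMap h n).basis (Module.finBasis ℤ_[p] (tateRep h).V)
      exact Finite.of_equiv _ b.equivFun.symm.toEquiv
    let W : Submodule ℤ_[p] (tateRep h).V := maximalIdeal ℤ_[p] ^ n • ⊤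
    have hmem : ∀ v : (tateRep h).V, v ∈ W ↔ levelMap h n v = 0 := by
      intro v
      refine (mem_maximalIdeal_pow_smul_top_iff (p := p) (M := M) v n).trans ?_
      exact ⟨fun h1 => Subtype.ext h1, fun h1 => congrArg Subtype.val h1⟩
    let g : ((tateRep h).V ⧸ W) →+ Submodule.torsionBy ℤ M (p ^ n : ℕ) :=
      QuotientAddGroup.lift _ (levelMap h n) fun v hv => (hmem v).mp hv
    have hg : Function.Bijective g := by
      constructor
      · rw [injective_iff_map_eq_zero]
        intro q hq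
        obtain ⟨v, rfl⟩ := Submodule.Quotient.mk_surjective _ q
        rw [Submodule.Quotient.mk_eq_zero]
        exact (hmem v).mpr hq
      · intro x
        obtain ⟨v, hv⟩ := (isLevel_levelMap h n).surj x
        exact ⟨Submodule.Quotient.mk v, hv⟩
    let e := (AddEquiv.ofBijective g hg).symm
    refine hm.congr e fun σ x => ?_
    obtain ⟨y, rfl⟩ := e.symm.surjective x
    rw [AddEquiv.apply_symm_apply]
    apply e.symm.injective
    rw [AddEquiv.symm_apply_apply]
    obtain ⟨v, rfl⟩ := Submodule.Quotient.mk_surjective _ y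
    refine Subtype.ext ?_
    rw [hact]
    rfl

end Ord

end Fermat.Agent.Tate
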