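import Fermat.Agent.Tate.Level
import Fermat.Agent.DefRing.Dictionary
import Fermat.Agent.FrobCompareDet

/-!
# The `p`-adic Galois representation attached to a group with `p`-power torsion of rank two

`M` an abelian group with an action of `G_ℚ`, `#M[p] = p^2`, multiplication by `p` surjective on
`p`-power torsion and all `M[p^n]` of finite level: `tateRep : GaloisRepAdic ℤ_[p]`.
-/

set_option autoImplicit false

open PadicInt IsLocalRing Polynomial

namespace Fermat.Agent.Tate

local notation "Γℚ" => (AlgebraicClosure ℚ ≃ₐ[ℚ] AlgebraicClosure ℚ)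

section Def

variable (p : ℕ) (M : Type) [AddCommGroup M] [DistribMulAction Γℚ M]

/-- The hypotheses under which the Tate module is a two dimensional Galois representation. -/
structure IsTateType : Prop where
  div : TorsionDivisible p M
  card : Nat.card {x : M // p • x = 0} = p ^ 2
  level : ∀ n : ℕ, ∃ L : IntermediateField ℚ (AlgebraicClosure ℚ), FiniteDimensional ℚ L ∧
    ∀ σ : Γℚ, (∀ x ∈ L, σ x = x) → ∀ m : M, p ^ n • m = 0 → σ • m = m

variable {p M} [hp : Fact p.Prime]

omit [DistribMulAction Γℚ M] in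
theorem finite_of_card_eq {r : ℕ} (h : Nat.card {x : M // p • x = 0} = p ^ r) :
    Finite {x : M // p • x = 0} :=
  Nat.finite_of_card_ne_zero (by rw [h]; exact pow_ne_zero _ hp.out.ne_zero)

/-- The `p`-adic Galois representation on `T_p M`. -/
noncomputable def tateRep (h : IsTateType p M) : GaloisRepAdic ℤ_[p] :=
  haveI := finite_of_finite (finite_of_card_eq h.card)
  haveI := free_of_finite (finite_of_card_eq h.card)
  { V := TateModule p M
    finrank_eq := finrank_tateModule h.div h.card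
    ρ := (mapEnd p M).comp (DistribMulAction.toAddMonoidEnd Γℚ M)
    isAdicContinuous := by
      intro n
      obtain ⟨L, hL, h1⟩ := h.level n
      refine ⟨L, hL, fun σ hσ v => ?_⟩
      rw [mem_maximalIdeal_pow_smul_top_iff, map_sub, sub_eq_zero]
      exact h1 σ hσ _ (pow_smul_ev v n) }

variable (h : IsTateType p M)

/-- The level `n` map from the space of `tateRep`. -/
noncomputable def levelMap (n : ℕ) : (tateRep h).V →+ Submodule.torsionBy ℤ M (p ^ n : ℕ) :=
  evTorsion (p := p) (M := M) n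

theorem isLevel_levelMap (n : ℕ) : IsLevel p n (levelMap h n) :=
  isLevel_evTorsion h.div n

theorem coe_levelMap_ρ (n : ℕ) (σ : Γℚ) (v : (tateRep h).V) :
    (levelMap h n ((tateRep h).ρ σ v) : M) = σ • (levelMap h n v : M) := rfl

theorem levelMap_ext {v w : (tateRep h).V} (hvw : ∀ n, levelMap h n v = levelMap h n w) : v = w :=
  ext (p := p) (M := M) fun n => congrArg Subtype.val (hvw n)

theorem end_ext {f g : Module.End ℤ_[p] (tateRep h).V}
    (hfg : ∀ n v, (levelMap h n (f v) : M) = levelMap h n (g v)) : f = g :=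
  LinearMap.ext fun v => levelMap_ext h fun n => Subtype.ext (hfg n v)

theorem torsion_levelMap (n : ℕ) (v : (tateRep h).V) : p ^ n • (levelMap h n v : M) = 0 :=
  pow_smul_ev (p := p) (M := M) v n

theorem tateRep_eq_one {σ : Γℚ} (hσ : ∀ (n : ℕ) (m : M), p ^ n • m = 0 → σ • m = m) :
    (tateRep h).ρ σ = 1 :=
  end_ext h fun n v => by
    rw [coe_levelMap_ρ, hσ n _ (torsion_levelMap h n v), Module.End.one_apply]

theorem smul_eq_of_tateRep_eq_one {σ : Γℚ} (hσ : (tateRep h).ρ σ = 1) (n : ℕ) (m : M)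
    (hm : p ^ n • m = 0) : σ • m = m := by
  obtain ⟨v, hv⟩ := (isLevel_levelMap h n).surj ⟨m, by
    rw [Submodule.mem_torsionBy_iff, natCast_zsmul, hm]⟩
  have h1 := coe_levelMap_ρ h n σ v
  rw [hσ, Module.End.one_apply, hv] at h1
  exact h1.symm

/-- Characteristic polynomials at finite level. -/
theorem charpoly_level (n : ℕ)
    [Module (ZMod (p ^ n)) (Submodule.torsionBy ℤ M (p ^ n : ℕ))]
    [Module.Free (ZMod (p ^ n)) (Submodule.torsionBy ℤ M (p ^ n : ℕ))]
    [Module.Finite (ZMod (p ^ n)) (Submodule.torsionBy ℤ M (p ^ n : ℕ))] (σ : Γℚ)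
    (ψ : Module.End (ZMod (p ^ n)) (Submodule.torsionBy ℤ M (p ^ n : ℕ)))
    (hψ : ∀ x, (ψ x : M) = σ • (x : M)) :
    LinearMap.charpoly ψ = (LinearMap.charpoly ((tateRep h).ρ σ)).map (toZModPow n) :=
  (isLevel_levelMap h n).charpoly_eq (Module.finBasis ℤ_[p] (tateRep h).V) _ ψ fun x =>
    Subtype.ext (by rw [coe_levelMap_ρ, hψ])

theorem det_level (n : ℕ)
    [Module (ZMod (p ^ n)) (Submodule.torsionBy ℤ M (p ^ n : ℕ))] (σ : Γℚ)
    (ψ : Module.End (ZMod (p ^ n)) (Submodule.torsionBy ℤ M (p ^ n : ℕ)))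
    (hψ : ∀ x, (ψ x : M) = σ • (x : M)) :
    LinearMap.det ψ = toZModPow n (LinearMap.det ((tateRep h).ρ σ)) :=
  (isLevel_levelMap h n).det_eq (Module.finBasis ℤ_[p] (tateRep h).V) _ ψ fun x =>
    Subtype.ext (by rw [coe_levelMap_ρ, hψ])

theorem trace_level (n : ℕ)
    [Module (ZMod (p ^ n)) (Submodule.torsionBy ℤ M (p ^ n : ℕ))] (σ : Γℚ)
    (ψ : Module.End (ZMod (p ^ n)) (Submodule.torsionBy ℤ M (p ^ n : ℕ)))
    (hψ : ∀ x, (ψ x : M) = σ • (x : M)) :
    LinearMap.trace _ _ ψ = toZModPow n (LinearMap.trace _ _ ((tateRep h).ρ σ)) :=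
  (isLevel_levelMap h n).trace_eq (Module.finBasis ℤ_[p] (tateRep h).V) _ ψ fun x =>
    Subtype.ext (by rw [coe_levelMap_ρ, hψ])

end Def

/-! ### Unipotent elements -/

section Unipotent

theorem trace_eq_two_of_sq_eq_zero {R V : Type*} [CommRing R] [IsDomain R] [AddCommGroup V]
    [Module R V] [Module.Free R V] [Module.Finite R V] (h2 : Module.finrank R V = 2)
    (g : Module.End R V) (hg : (g - 1) * (g - 1) = 0) : LinearMap.trace R V g = 2 := by
  have hnil : IsNilpotent (g - 1) := ⟨2, by rw [pow_two, hg]⟩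
  have h1 := LinearMap.isNilpotent_trace_of_isNilpotent hnil
  rw [isNilpotent_iff_eq_zero, map_sub, LinearMap.trace_one, h2, sub_eq_zero] at h1
  rw [h1]
  norm_num

theorem charpoly_eq_of_sq_eq_zero {R V : Type*} [CommRing R] [IsDomain R] [AddCommGroup V]
    [Module R V] [Module.Free R V] [Module.Finite R V] (h2 : Module.finrank R V = 2)
    (g : Module.End R V) (hg : (g - 1) * (g - 1) = 0) :
    LinearMap.charpoly g = (X - 1) ^ 2 := by
  have ht := trace_eq_two_of_sq_eq_zero h2 g hg
  have hCH := FrobCompare.cayleyHamilton_two h2 g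
  have hd : LinearMap.det g = 1 := by
    have h3 : (LinearMap.det g - 1) • (1 : Module.End R V) = 0 := by
      have h4 : g ^ 2 = (2 : R) • g - 1 := by
        have : (g - 1) * (g - 1) = g ^ 2 - (2 : R) • g + 1 := by
          rw [two_smul]; noncomm_ring
        rw [this] at hg
        linear_combination (norm := module) hg
      rw [h4, ht] at hCH
      linear_combination (norm := module) hCH
    have : Nontrivial V := Module.nontrivial_of_finrank_eq_succ (n := 1) h2
    have hnt : Nontrivial (Module.End R V) := inferInstance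
    rcases smul_eq_zero.mp h3 with h4 | h4
    · exact sub_eq_zero.mp h4
    · exact absurd h4 one_ne_zero
  rw [BN2.charpoly_eq_of_finrank_two h2, ht, hd]
  simp only [map_one, map_ofNat]
  ring

end Unipotent

section Transfer

variable {p : ℕ} {M : Type} [AddCommGroup M] [DistribMulAction Γℚ M] [hp : Fact p.Prime]
  (h : IsTateType p M)

/-- `(σ - 1)² = 0` on the `p`-power torsion implies `(ρ σ - 1)² = 0`. -/
theorem tateRep_sub_one_sq {σ : Γℚ}
    (hσ : ∀ (n : ℕ) (m : M), p ^ n • m = 0 → σ • (σ • m - m) = σ • m - m) :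
    ((tateRep h).ρ σ - 1) * ((tateRep h).ρ σ - 1) = 0 :=
  end_ext h fun n v => by
    have h1 := hσ n (levelMap h n v) (torsion_levelMap h n v)
    have h2 : (((tateRep h).ρ σ - 1) * ((tateRep h).ρ σ - 1)) v =
        ((tateRep h).ρ σ ((tateRep h).ρ σ v) - (tateRep h).ρ σ v) - ((tateRep h).ρ σ v - v) := by
      rw [Module.End.mul_apply, LinearMap.sub_apply, LinearMap.sub_apply, Module.End.one_apply,
        Module.End.one_apply, map_sub]
    rw [h2, map_sub, map_sub, map_sub, LinearMap.zero_apply, map_zero]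
    push_cast
    rw [coe_levelMap_ρ, coe_levelMap_ρ, ← smul_sub, h1, sub_self]

theorem charpoly_eq_of_unipotent {σ : Γℚ}
    (hσ : ∀ (n : ℕ) (m : M), p ^ n • m = 0 → σ • (σ • m - m) = σ • m - m) :
    LinearMap.charpoly ((tateRep h).ρ σ) = (X - 1) ^ 2 :=
  charpoly_eq_of_sq_eq_zero (tateRep h).finrank_eq _ (tateRep_sub_one_sq h hσ)

theorem isUnipotentOnInertiaAt {q : ℕ}
    (hq : ∀ A : ValuationSubring (AlgebraicClosure ℚ), A.LiesOverPrime q →
      ∀ σ ∈ A.inertiaSubgroupIn ℚ, ∀ (n : ℕ) (m : M), p ^ n • m = 0 →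
        σ • (σ • m - m) = σ • m - m) :
    (tateRep h).IsUnipotentOnInertiaAt q :=
  fun A hA σ hσ => charpoly_eq_of_unipotent h (hq A hA σ hσ)

theorem isUnramifiedAt {q : ℕ}
    (hq : ∀ A : ValuationSubring (AlgebraicClosure ℚ), A.LiesOverPrime q →
      ∀ σ ∈ A.inertiaSubgroupIn ℚ, ∀ (n : ℕ) (m : M), p ^ n • m = 0 → σ • m = m) :
    (tateRep h).IsUnramifiedAt q :=
  fun A hA σ hσ => tateRep_eq_one h (hq A hA σ hσ)

end Transfer

end Fermat.Agent.Tate
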