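import Fermat.Agent.Tate.Basic

/-!
# Comparison of a `ℤ_[p]`-module `T` and of `T / p^n`

`T` a free `ℤ_[p]`-module with basis `b`, `N` a `ZMod (p^n)`-module and `f : T →+ N` surjective with
kernel `p^n T` (`IsLevel`): then `f ∘ b` is a basis of `N`, and matrices, determinants, traces and
characteristic polynomials of compatible endomorphisms are obtained by reduction.
-/

set_option autoImplicit false

open PadicInt IsLocalRing

namespace Fermat.Agent.Tate

section Level

variable {p : ℕ} [hp : Fact p.Prime] {T : Type*} [AddCommGroup T] [Module ℤ_[p] T]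
  {n : ℕ} {N : Type*} [AddCommGroup N] [Module (ZMod (p ^ n)) N]

/-- additive maps from a `ℤ_[p]`-module to a `ZMod (p^n)`-module are semilinear -/
theorem map_padicInt_smul (f : T →+ N) (a : ℤ_[p]) (x : T) :
    f (a • x) = toZModPow n a • f x := by
  obtain ⟨c, hc⟩ := Ideal.mem_span_singleton'.mp (appr_spec n a)
  have h1 : a = (a.appr n : ℤ_[p]) + (p ^ n : ℕ) * c := by
    push_cast
    rw [mul_comm, hc]; ring
  have h2 : ∀ y : N, (p ^ n : ℕ) • y = 0 := fun y => by
    rw [← Nat.cast_smul_eq_nsmul (ZMod (p ^ n)), ZMod.natCast_self, zero_smul]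
  conv_lhs => rw [h1]
  rw [add_smul, mul_smul, Nat.cast_smul_eq_nsmul, Nat.cast_smul_eq_nsmul, map_add, map_nsmul,
    map_nsmul, h2, add_zero, toZModPow_eq_appr, Nat.cast_smul_eq_nsmul]

variable (p n) in
/-- `f` identifies `N` with `T / p^n T`. -/
structure IsLevel {N : Type*} [AddCommGroup N] (f : T →+ N) : Prop where
  surj : Function.Surjective f
  ker : ∀ x, f x = 0 → ∃ y : T, (p : ℤ_[p]) ^ n • y = x

variable {f : T →+ N}

variable {ι : Type*} [Fintype ι]

theorem IsLevel.linearIndependent (hf : IsLevel p n f) (b : Module.Basis ι ℤ_[p] T) :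
    LinearIndependent (ZMod (p ^ n)) fun i => f (b i) := by
  rw [Fintype.linearIndependent_iff]
  intro g hg i
  have hg1 : ∀ i, toZModPow n ((g i).val : ℤ_[p]) = g i := fun i => by
    rw [map_natCast, ZMod.natCast_zmod_val]
  have h1 : f (∑ i, ((g i).val : ℤ_[p]) • b i) = 0 := by
    rw [map_sum, ← hg]
    exact Finset.sum_congr rfl fun i _ => by rw [map_padicInt_smul (n := n), hg1]
  obtain ⟨y, hy⟩ := hf.ker _ h1
  have h2 : ((g i).val : ℤ_[p]) = (p : ℤ_[p]) ^ n * b.repr y i := by
    have := congrArg (fun z => b.repr z i) hy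
    simp only [map_smul, Finsupp.smul_apply, smul_eq_mul, map_sum, Finsupp.coe_finsetSum,
      Finset.sum_apply, Module.Basis.repr_self] at this
    rw [this, Finset.sum_eq_single i]
    · simp
    · intro j _ hj
      simp [Finsupp.single_eq_of_ne hj.symm]
    · simp
  rw [← hg1 i, h2, map_mul, map_pow, map_natCast]
  have : ((p : ZMod (p ^ n))) ^ n = 0 := by
    rw [← Nat.cast_pow, ZMod.natCast_self]
  rw [this, zero_mul]

omit [Fintype ι] in
variable (n f) in
theorem map_eq_sum [Fintype ι] (b : Module.Basis ι ℤ_[p] T) (x : T) :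
    f x = ∑ i, toZModPow n (b.repr x i) • f (b i) := by
  conv_lhs => rw [← b.sum_repr x]
  rw [map_sum]
  exact Finset.sum_congr rfl fun i _ => map_padicInt_smul (n := n) f _ _

/-- the basis of level `n` -/
noncomputable def IsLevel.basis (hf : IsLevel p n f) (b : Module.Basis ι ℤ_[p] T) :
    Module.Basis ι (ZMod (p ^ n)) N :=
  Module.Basis.mk (hf.linearIndependent b) (by
    intro y _
    obtain ⟨x, rfl⟩ := hf.surj y
    rw [map_eq_sum n f b x]
    exact Submodule.sum_mem _ fun i _ =>
      Submodule.smul_mem _ _ (Submodule.subset_span ⟨i, rfl⟩))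

@[simp] theorem IsLevel.basis_apply (hf : IsLevel p n f) (b : Module.Basis ι ℤ_[p] T) (i : ι) :
    hf.basis b i = f (b i) := by
  rw [IsLevel.basis, Module.Basis.mk_apply]

theorem IsLevel.basis_repr (hf : IsLevel p n f) (b : Module.Basis ι ℤ_[p] T) (x : T) (i : ι) :
    (hf.basis b).repr (f x) i = toZModPow n (b.repr x i) := by
  classical
  rw [map_eq_sum n f b x]
  have : ∀ i, f (b i) = hf.basis b i := fun i => (hf.basis_apply b i).symm
  simp only [this, map_sum, map_smul, Module.Basis.repr_self]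
  simp [Finsupp.single_apply]

variable [DecidableEq ι]

theorem IsLevel.toMatrix (hf : IsLevel p n f) (b : Module.Basis ι ℤ_[p] T) (φ : Module.End ℤ_[p] T)
    (ψ : Module.End (ZMod (p ^ n)) N) (h : ∀ x, f (φ x) = ψ (f x)) :
    LinearMap.toMatrix (hf.basis b) (hf.basis b) ψ =
      (LinearMap.toMatrix b b φ).map (toZModPow n) := by
  ext i j
  rw [LinearMap.toMatrix_apply, Matrix.map_apply, LinearMap.toMatrix_apply, hf.basis_apply, ← h,
    hf.basis_repr]

omit [DecidableEq ι] in
theorem IsLevel.det_eq (hf : IsLevel p n f) (b : Module.Basis ι ℤ_[p] T) (φ : Module.End ℤ_[p] T)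
    (ψ : Module.End (ZMod (p ^ n)) N) (h : ∀ x, f (φ x) = ψ (f x)) :
    LinearMap.det ψ = toZModPow n (LinearMap.det φ) := by
  classical
  rw [← LinearMap.det_toMatrix (hf.basis b), ← LinearMap.det_toMatrix b, hf.toMatrix b φ ψ h,
    RingHom.map_det, RingHom.mapMatrix_apply]

omit [DecidableEq ι] in
theorem IsLevel.trace_eq (hf : IsLevel p n f) (b : Module.Basis ι ℤ_[p] T) (φ : Module.End ℤ_[p] T)
    (ψ : Module.End (ZMod (p ^ n)) N) (h : ∀ x, f (φ x) = ψ (f x)) :
    LinearMap.trace _ _ ψ = toZModPow n (LinearMap.trace _ _ φ) := by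
  classical
  rw [LinearMap.trace_eq_matrix_trace _ (hf.basis b), LinearMap.trace_eq_matrix_trace _ b,
    hf.toMatrix b φ ψ h, ← AddMonoidHom.map_trace]

omit [DecidableEq ι] in
theorem IsLevel.charpoly_eq (hf : IsLevel p n f) (b : Module.Basis ι ℤ_[p] T)
    [Module.Free (ZMod (p ^ n)) N] [Module.Finite (ZMod (p ^ n)) N]
    [Module.Free ℤ_[p] T] [Module.Finite ℤ_[p] T]
    (φ : Module.End ℤ_[p] T)
    (ψ : Module.End (ZMod (p ^ n)) N) (h : ∀ x, f (φ x) = ψ (f x)) :
    LinearMap.charpoly ψ = (LinearMap.charpoly φ).map (toZModPow n) := by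
  classical
  rw [← LinearMap.charpoly_toMatrix ψ (hf.basis b), ← LinearMap.charpoly_toMatrix φ b,
    hf.toMatrix b φ ψ h, Matrix.charpoly_map]

/-- polynomials over `ℤ_[p]` are determined by their reductions -/
theorem polynomial_ext {P Q : Polynomial ℤ_[p]}
    (h : ∀ n, P.map (toZModPow n) = Q.map (toZModPow n)) : P = Q := by
  ext i : 1
  refine (ext_of_toZModPow (p := p)).mp fun n => ?_
  have := congrArg (fun R => R.coeff i) (h n)
  simpa only [Polynomial.coeff_map] using this

end Level

section TorsionLevel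

variable {p : ℕ} [hp : Fact p.Prime] {M : Type*} [AddCommGroup M]

/-- the map `T_p M → M[p^n]` -/
noncomputable def evTorsion (n : ℕ) :
    TateModule p M →+ Submodule.torsionBy ℤ M (p ^ n : ℕ) where
  toFun x := ⟨ev n x, by
    rw [Submodule.mem_torsionBy_iff, natCast_zsmul, pow_smul_ev]⟩
  map_zero' := Subtype.ext (map_zero _)
  map_add' x y := Subtype.ext (map_add _ x y)

omit hp in
@[simp] theorem coe_evTorsion (n : ℕ) (x : TateModule p M) :
    (evTorsion n x : M) = ev n x := rfl

theorem isLevel_evTorsion (hdiv : TorsionDivisible p M) (n : ℕ) :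
    IsLevel p n (evTorsion (p := p) (M := M) n) where
  surj := by
    rintro ⟨x, hx⟩
    rw [Submodule.mem_torsionBy_iff, natCast_zsmul] at hx
    obtain ⟨t, ht⟩ := exists_ev_eq hdiv hx
    exact ⟨t, Subtype.ext ht⟩
  ker x hx := by
    have h := congrArg Subtype.val hx
    exact (ev_eq_zero_iff x n).mp h

/-- Rank of the Tate module. -/
theorem finrank_tateModule (hdiv : TorsionDivisible p M) {r : ℕ}
    (hcard : Nat.card {x : M // p • x = 0} = p ^ r) :
    Module.finrank ℤ_[p] (TateModule p M) = r := by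
  have hfin : Finite {x : M // p • x = 0} :=
    Nat.finite_of_card_ne_zero (by rw [hcard]; exact pow_ne_zero _ hp.out.ne_zero)
  have := finite_of_finite hfin
  have := free_of_finite hfin
  let b := Module.finBasis ℤ_[p] (TateModule p M)
  letI : Module (ZMod (p ^ 1)) (Submodule.torsionBy ℤ M (p ^ 1 : ℕ)) :=
    AddCommGroup.zmodModule fun x => by
      rw [← Nat.cast_smul_eq_nsmul ℤ (p ^ 1) x]
      exact Submodule.smul_torsionBy _ x
  let b1 := (isLevel_evTorsion hdiv 1).basis b
  have h1 : Nat.card (Submodule.torsionBy ℤ M (p ^ 1 : ℕ)) =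
      (p ^ 1) ^ Module.finrank ℤ_[p] (TateModule p M) := by
    rw [Nat.card_congr b1.equivFun.toEquiv, Nat.card_fun, Nat.card_zmod, Nat.card_fin]
  have h2 : Nat.card (Submodule.torsionBy ℤ M (p ^ 1 : ℕ)) = Nat.card {x : M // p • x = 0} := by
    refine Nat.card_congr (Equiv.subtypeEquivRight fun x => ?_)
    rw [Submodule.mem_torsionBy_iff, pow_one, natCast_zsmul]
  rw [h2, hcard, pow_one] at h1
  exact (Nat.pow_right_injective hp.out.two_le h1).symm

end TorsionLevel

end Fermat.Agent.Tate
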