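import Fermat.Agent.Tate.Galois

/-!
# Reduction along a surjective ring homomorphism `φ : R → S`

`T` a free `R`-module, `N` an `S`-module, `f : T →+ N` a `φ`-semilinear surjection with kernel
`(ker φ) T`.
-/

set_option autoImplicit false

open PadicInt IsLocalRing Polynomial

namespace Fermat.Agent.Tate

section Red

variable {R S T N : Type*} [CommRing R] [CommRing S] [AddCommGroup T] [Module R T]
  [AddCommGroup N] [Module S N]

/-- `f` identifies `N` with `S ⊗ T` (for `φ` surjective). -/
structure IsRed (φ : R →+* S) (f : T →+ N) : Prop where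
  surjφ : Function.Surjective φ
  surj : Function.Surjective f
  smul : ∀ (a : R) (x : T), f (a • x) = φ a • f x
  ker : ∀ x, f x = 0 → x ∈ RingHom.ker φ • (⊤ : Submodule R T)

variable {φ : R →+* S} {f : T →+ N} {ι : Type*} [Fintype ι]

omit [Fintype ι] in
theorem repr_mem_of_mem_smul_top (b : Module.Basis ι R T) (I : Ideal R) {x : T}
    (hx : x ∈ I • (⊤ : Submodule R T)) (i : ι) : b.repr x i ∈ I := by
  refine Submodule.smul_induction_on hx (fun a ha v _ => ?_) (fun x y hx hy => ?_)
  · rw [map_smul, Finsupp.smul_apply, smul_eq_mul]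
    exact I.mul_mem_right _ ha
  · rw [map_add, Finsupp.add_apply]
    exact I.add_mem hx hy

theorem IsRed.map_eq_sum (hf : IsRed φ f) (b : Module.Basis ι R T) (x : T) :
    f x = ∑ i, φ (b.repr x i) • f (b i) := by
  conv_lhs => rw [← b.sum_repr x]
  rw [map_sum]
  exact Finset.sum_congr rfl fun i _ => hf.smul _ _

theorem IsRed.linearIndependent (hf : IsRed φ f) (b : Module.Basis ι R T) :
    LinearIndependent S fun i => f (b i) := by
  rw [Fintype.linearIndependent_iff]
  intro g hg i
  choose a ha using fun i => hf.surjφ (g i)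
  have h1 : f (∑ i, a i • b i) = 0 := by
    rw [map_sum, ← hg]
    exact Finset.sum_congr rfl fun i _ => by rw [hf.smul, ha]
  have h2 := repr_mem_of_mem_smul_top b _ (hf.ker _ h1) i
  rw [b.repr_sum_self] at h2
  rw [← ha i]
  exact h2

/-- the reduced basis -/
noncomputable def IsRed.basis (hf : IsRed φ f) (b : Module.Basis ι R T) : Module.Basis ι S N :=
  Module.Basis.mk (hf.linearIndependent b) (by
    intro y _
    obtain ⟨x, rfl⟩ := hf.surj y
    rw [hf.map_eq_sum b x]
    exact Submodule.sum_mem _ fun i _ =>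
      Submodule.smul_mem _ _ (Submodule.subset_span ⟨i, rfl⟩))

@[simp] theorem IsRed.basis_apply (hf : IsRed φ f) (b : Module.Basis ι R T) (i : ι) :
    hf.basis b i = f (b i) := by
  rw [IsRed.basis, Module.Basis.mk_apply]

theorem IsRed.basis_repr (hf : IsRed φ f) (b : Module.Basis ι R T) (x : T) (i : ι) :
    (hf.basis b).repr (f x) i = φ (b.repr x i) := by
  classical
  rw [hf.map_eq_sum b x]
  have : ∀ i, f (b i) = hf.basis b i := fun i => (hf.basis_apply b i).symm
  simp only [this, map_sum, map_smul, Module.Basis.repr_self]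
  simp [Finsupp.single_apply]

theorem IsRed.toMatrix [DecidableEq ι] (hf : IsRed φ f) (b : Module.Basis ι R T)
    (α : Module.End R T) (β : Module.End S N) (h : ∀ x, f (α x) = β (f x)) :
    LinearMap.toMatrix (hf.basis b) (hf.basis b) β = (LinearMap.toMatrix b b α).map φ := by
  ext i j
  rw [LinearMap.toMatrix_apply, Matrix.map_apply, LinearMap.toMatrix_apply, hf.basis_apply, ← h,
    hf.basis_repr]

theorem IsRed.det_eq (hf : IsRed φ f) (b : Module.Basis ι R T) (α : Module.End R T)
    (β : Module.End S N) (h : ∀ x, f (α x) = β (f x)) :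
    LinearMap.det β = φ (LinearMap.det α) := by
  classical
  rw [← LinearMap.det_toMatrix (hf.basis b), ← LinearMap.det_toMatrix b, hf.toMatrix b α β h,
    RingHom.map_det, RingHom.mapMatrix_apply]

theorem IsRed.trace_eq (hf : IsRed φ f) (b : Module.Basis ι R T) (α : Module.End R T)
    (β : Module.End S N) (h : ∀ x, f (α x) = β (f x)) :
    LinearMap.trace _ _ β = φ (LinearMap.trace _ _ α) := by
  classical
  rw [LinearMap.trace_eq_matrix_trace _ (hf.basis b), LinearMap.trace_eq_matrix_trace _ b,
    hf.toMatrix b α β h, ← AddMonoidHom.map_trace]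

theorem IsRed.charpoly_eq (hf : IsRed φ f) (b : Module.Basis ι R T)
    [Module.Free S N] [Module.Finite S N] [Module.Free R T] [Module.Finite R T]
    (α : Module.End R T) (β : Module.End S N) (h : ∀ x, f (α x) = β (f x)) :
    LinearMap.charpoly β = (LinearMap.charpoly α).map φ := by
  classical
  rw [← LinearMap.charpoly_toMatrix β (hf.basis b), ← LinearMap.charpoly_toMatrix α b,
    hf.toMatrix b α β h, Matrix.charpoly_map]

end Red

section ModP

variable {p : ℕ} [hp : Fact p.Prime] {M : Type*} [AddCommGroup M]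

/-- the map `T_p M → M[p]` -/
noncomputable def evTorsionOne : TateModule p M →+ Submodule.torsionBy ℤ M p where
  toFun x := ⟨ev 1 x, by
    have h := pow_smul_ev x 1
    rw [pow_one] at h
    rw [Submodule.mem_torsionBy_iff, natCast_zsmul, h]⟩
  map_zero' := Subtype.ext (map_zero _)
  map_add' x y := Subtype.ext (map_add _ x y)

theorem isRed_evTorsionOne (hdiv : TorsionDivisible p M)
    [Module (ZMod p) (Submodule.torsionBy ℤ M p)] :
    IsRed (PadicInt.toZMod (p := p)) (evTorsionOne (p := p) (M := M)) where
  surjφ := fun a => ⟨(a.val : ℤ_[p]), by rw [map_natCast, ZMod.natCast_zmod_val]⟩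
  surj := by
    rintro ⟨x, hx⟩
    rw [Submodule.mem_torsionBy_iff, natCast_zsmul] at hx
    obtain ⟨t, ht⟩ := exists_ev_eq (n := 1) hdiv (by rw [pow_one]; exact hx)
    exact ⟨t, Subtype.ext ht⟩
  smul a x := by
    have h1 : evTorsionOne (a • x) = (a.appr 1) • evTorsionOne x :=
      Subtype.ext (ev_smul' a x 1)
    have h2 : PadicInt.toZMod a = (a.appr 1 : ZMod p) := by
      have h3 := appr_spec 1 a
      rw [pow_one, ← PadicInt.maximalIdeal_eq_span_p, ← PadicInt.ker_toZMod, RingHom.mem_ker,
        map_sub, map_natCast, sub_eq_zero] at h3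
      exact h3
    rw [h1, h2, Nat.cast_smul_eq_nsmul]
  ker x hx := by
    have h := congrArg Subtype.val hx
    rw [PadicInt.ker_toZMod]
    have h1 := (mem_maximalIdeal_pow_smul_top_iff x 1).mpr h
    rwa [pow_one] at h1

end ModP

end Fermat.Agent.Tate
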